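/-
S56lib / Main / Arith (lead).  The pure arithmetic behind the Selmer bound: from the Greenberg–Wiles
count and the Euler characteristic inequalities, `|Sel| ≤ κ ^ |Q|`.
-/
import Mathlib

set_option autoImplicit false

namespace Fermat.Agent.S56lib.Main

open Finset

/-- `∏_q (if q ∈ Q then κ else 1) = κ ^ |Q|` -/
lemma prod_ite_mem_const {ι : Type*} [Fintype ι] [DecidableEq ι] (Q : Finset ι) (κ : ℕ) :
    ∏ q : ι, (if q ∈ Q then κ else 1) = κ ^ Q.card := by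
  rw [Finset.prod_ite_mem, Finset.univ_inter, Finset.prod_const]

/-- the arithmetic of the Selmer bound -/
lemma le_pow_of_count {ι : Type*} [Fintype ι] [DecidableEq ι] (h1 h2 l : ι → ℕ)
    (sel H1 H2 D0 κ : ℕ) (p₀ : ι) (Q : Finset ι) (hpQ : p₀ ∉ Q)
    (hid : sel * H2 * D0 * ∏ q, h1 q = H1 * (∏ q, h2 q) * ∏ q, l q)
    (hG : H1 ≤ H2 * κ ^ 2)
    (hP : l p₀ * h2 p₀ * κ ^ 2 ≤ h1 p₀)
    (hq : ∀ q, q ∉ Q → q ≠ p₀ → l q * h2 q ≤ h1 q)
    (hT : ∀ q ∈ Q, l q * h2 q ≤ κ * h1 q)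
    (hH2 : 0 < H2) (hD0 : 0 < D0) (h1pos : ∀ q, 0 < h1 q) :
    sel ≤ κ ^ Q.card := by
  classical
  set g : ι → ℕ := fun q => if q ∈ Q then κ else 1 with hg
  have hgp : g p₀ = 1 := by simp [hg, hpQ]
  -- the local factors
  have hloc : ∀ q ∈ Finset.univ.erase p₀, l q * h2 q ≤ g q * h1 q := by
    intro q hq'
    have hne : q ≠ p₀ := (Finset.mem_erase.1 hq').1
    by_cases hqQ : q ∈ Q
    · simpa [hg, hqQ] using hT q hqQ
    · simpa [hg, hqQ] using hq q hqQ hne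
  have key : (∏ q, l q * h2 q) * κ ^ 2 ≤ κ ^ Q.card * ∏ q, h1 q := by
    have e1 : (∏ q, l q * h2 q) = (l p₀ * h2 p₀) * ∏ q ∈ Finset.univ.erase p₀, l q * h2 q :=
      (Finset.mul_prod_erase _ _ (Finset.mem_univ p₀)).symm
    have e2 : κ ^ Q.card * ∏ q, h1 q = (g p₀ * h1 p₀) * ∏ q ∈ Finset.univ.erase p₀, g q * h1 q := by
      rw [Finset.mul_prod_erase _ (fun q => g q * h1 q) (Finset.mem_univ p₀),
        Finset.prod_mul_distrib, prod_ite_mem_const]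
    rw [e1, e2, hgp, one_mul]
    calc l p₀ * h2 p₀ * (∏ q ∈ Finset.univ.erase p₀, l q * h2 q) * κ ^ 2
        = (l p₀ * h2 p₀ * κ ^ 2) * ∏ q ∈ Finset.univ.erase p₀, l q * h2 q := by ring
      _ ≤ h1 p₀ * ∏ q ∈ Finset.univ.erase p₀, g q * h1 q :=
          Nat.mul_le_mul hP (Finset.prod_le_prod (fun _ _ => Nat.zero_le _) hloc)
  set P1 := ∏ q, h1 q with hP1
  have hP1pos : 0 < P1 := Finset.prod_pos fun q _ => h1pos q
  have h3 : sel * (H2 * D0 * P1) ≤ κ ^ Q.card * (H2 * D0 * P1) := by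
    calc sel * (H2 * D0 * P1) = sel * H2 * D0 * P1 := by ring
      _ = H1 * (∏ q, h2 q) * ∏ q, l q := hid
      _ = H1 * ∏ q, l q * h2 q := by rw [Finset.prod_mul_distrib]; ring
      _ ≤ (H2 * κ ^ 2) * ∏ q, l q * h2 q := Nat.mul_le_mul_right _ hG
      _ = H2 * ((∏ q, l q * h2 q) * κ ^ 2) := by ring
      _ ≤ H2 * (κ ^ Q.card * P1) := Nat.mul_le_mul_left _ key
      _ = κ ^ Q.card * (H2 * 1 * P1) := by ring
      _ ≤ κ ^ Q.card * (H2 * D0 * P1) :=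
          Nat.mul_le_mul_left _ (Nat.mul_le_mul_right _ (Nat.mul_le_mul_left _ hD0))
  exact Nat.le_of_mul_le_mul_right h3 (Nat.mul_pos (Nat.mul_pos hH2 hD0) hP1pos)

end Fermat.Agent.S56lib.Main
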