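/-
S56lib / Main / Count (lead).  **The Selmer bound** `|Sel_L(G_{S₀ ∪ Q}, M)| ≤ κ ^ |Q|` from the
Greenberg–Wiles count (helper7's `exists_pairings_card`), the vanishing of the dual Selmer group
(`hkill`, from `TWSel.exists_TW_kill`) and the Euler characteristic inequalities, in the shapes

* `hG` : `|H¹(G_S, M)| ≤ |H²(G_S, M)| · κ²`                       (global, `S = S₀ ∪ Q`),
* `hP` : `|L_p| · |H²(G_p, M)| · κ² ≤ |H¹(G_p, M)|`                (at `p`),
* `hq` : `|L_q| · |H²(G_q, M)| ≤ |H¹(G_q, M)|`                     (`q ∈ S₀`, `q ≠ p`),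
* `hT` : `|H²(G_q, M)| ≤ κ`                                          (`q ∈ Q`; there `L_q = ⊤`).
-/
import Mathlib
import Fermat.Agent.S56lib.Main.Arith
import Fermat.Agent.S56lib.PT9a.TailInst
import Fermat.Agent.S56lib.Fin.Main

set_option autoImplicit false
set_option linter.unusedSectionVars false
set_option linter.style.haveILetI false

noncomputable section

namespace Fermat.Agent.S56lib.Main

open Fermat.Agent.S55lib Fermat.Agent.S56lib.PT9a ExtCitation

variable {p : ℕ} [hp : Fact p.Prime] (S₀ Q : Finset Nat.Primes)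
  (M : Rep.{0} (ZMod p) GQ)

/-- local conditions on `S₀`, extended by `⊤` at the primes of `Q` -/
def extTop (L : ∀ q : S₀, Submodule (ZMod p) (H1loc M q.1)) :
    ∀ q : ↥(S₀ ∪ Q), Submodule (ZMod p) (H1loc M q.1) :=
  fun q => if h : q.1 ∈ S₀ then L ⟨q.1, h⟩ else ⊤

lemma extTop_of_mem (L : ∀ q : S₀, Submodule (ZMod p) (H1loc M q.1)) (q : ↥(S₀ ∪ Q))
    (h : q.1 ∈ S₀) : extTop S₀ Q M L q = L ⟨q.1, h⟩ := dif_pos h

lemma extTop_of_not_mem (L : ∀ q : S₀, Submodule (ZMod p) (H1loc M q.1)) (q : ↥(S₀ ∪ Q))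
    (h : q.1 ∉ S₀) : extTop S₀ Q M L q = ⊤ := dif_neg h

variable [FiniteDimensional (ZMod p) M]

theorem card_selmer_le (hp2 : p ≠ 2) (hpS : (⟨p, hp.out⟩ : Nat.Primes) ∈ S₀)
    (hdisj : Disjoint S₀ Q)
    (hM : Sm.IsSmooth (MonoidHom.id GQ) (LevelClass.unr (S₀ ∪ Q)) M)
    (κ : ℕ) (L : ∀ q : S₀, Submodule (ZMod p) (H1loc M q.1))
    (hkill : ∀ x : H1S (S₀ ∪ Q) (M.dualTwist (cycloChar p)),
      (∀ q ∈ Q, loc1 (S₀ ∪ Q) (M.dualTwist (cycloChar p)) q x = 0) → x = 0)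
    (hG : Nat.card (H1S (S₀ ∪ Q) M) ≤ Nat.card (H2S (S₀ ∪ Q) M) * κ ^ 2)
    (hP : Nat.card (L ⟨_, hpS⟩) * Nat.card (H2loc M ⟨p, hp.out⟩) * κ ^ 2
      ≤ Nat.card (H1loc M ⟨p, hp.out⟩))
    (hq : ∀ q : S₀, q.1 ≠ ⟨p, hp.out⟩ →
      Nat.card (L q) * Nat.card (H2loc M q.1) ≤ Nat.card (H1loc M q.1))
    (hT : ∀ q ∈ Q, Nat.card (H2loc M q) ≤ κ) :
    Nat.card (selmer (S₀ ∪ Q) M (extTop S₀ Q M L)) ≤ κ ^ Q.card := by
  classical
  set S : Finset Nat.Primes := S₀ ∪ Q with hS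
  have hpS' : (⟨p, hp.out⟩ : Nat.Primes) ∈ S := Finset.mem_union_left _ hpS
  -- finiteness
  haveI f1 : Finite (H1S S M) := Fin.finite_H1S S M hp2 hpS' hM
  haveI f2 : Finite (H2S S M) := Fin.finite_H2S S M hp2 hpS' hM
  haveI f3 : Finite (H1S S (M.dualTwist (cycloChar p))) :=
    Fin.finite_H1S S (M.dualTwist (cycloChar p)) hp2 hpS' (isSmooth_dualTwist S hpS' M hM)
  haveI f4 : ∀ q : S, Finite (H1loc M q.1) := fun q => Fin.finite_H1loc S M hM q
  haveI f5 : ∀ q : S, Finite (H2loc M q.1) := fun q => Fin.finite_H2loc S M hp2 hpS' hM q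
  haveI g1 : FiniteDimensional (ZMod p) (H1S S M) := Module.Finite.of_finite
  haveI g2 : FiniteDimensional (ZMod p) (H2S S M) := Module.Finite.of_finite
  haveI g3 : FiniteDimensional (ZMod p) (H1S S (M.dualTwist (cycloChar p))) :=
    Module.Finite.of_finite
  haveI g4 : ∀ q : S, FiniteDimensional (ZMod p) (H1loc M q.1) := fun q => Module.Finite.of_finite
  haveI g5 : ∀ q : S, FiniteDimensional (ZMod p) (H2loc M q.1) := fun q => Module.Finite.of_finite
  obtain ⟨πc, -, hperp, hcount⟩ := exists_pairings_card hp2 S hpS' M hM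
  have hid := hcount (extTop S₀ Q M L)
  -- the dual Selmer group vanishes
  have hsel' : Nat.card (selmer S (M.dualTwist (cycloChar p))
      (fun q => GW.perp (πc q) (extTop S₀ Q M L q))) = 1 := by
    have hbot : selmer S (M.dualTwist (cycloChar p))
        (fun q => GW.perp (πc q) (extTop S₀ Q M L q)) = ⊥ := by
      rw [eq_bot_iff]
      intro x hx
      rw [Submodule.mem_bot]
      refine hkill x fun q hqQ => ?_
      have hqS : q ∈ S := Finset.mem_union_right _ hqQ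
      have hq0 : q ∉ S₀ := fun h => (Finset.disjoint_left.1 hdisj h) hqQ
      have h1 := (mem_selmer S (M.dualTwist (cycloChar p))).1 hx ⟨q, hqS⟩
      rw [extTop_of_not_mem S₀ Q M L ⟨q, hqS⟩ hq0, hperp ⟨q, hqS⟩, Submodule.mem_bot] at h1
      exact h1
    rw [hbot]
    exact Nat.card_unique
  rw [hsel', one_mul] at hid
  -- the set `Q` inside `S`
  set Q' : Finset ↥S := Q.subtype (· ∈ S) with hQ'
  have hQcard : Q'.card = Q.card := by
    rw [hQ', Finset.card_subtype]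
    congr 1
    exact Finset.filter_true_of_mem fun q hq => Finset.mem_union_right _ hq
  have hmemQ' : ∀ q : ↥S, q ∈ Q' ↔ q.1 ∈ Q := fun q => Finset.mem_subtype
  haveI : Finite M := Module.finite_of_finite (ZMod p)
  haveI : Finite (PT9.D0 M) := Finite.of_injective _ Subtype.val_injective
  rw [← hQcard]
  refine le_pow_of_count (fun q : ↥S => Nat.card (H1loc M q.1)) (fun q => Nat.card (H2loc M q.1))
    (fun q => Nat.card (extTop S₀ Q M L q)) _ (Nat.card (H1S S M)) (Nat.card (H2S S M))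
    (Nat.card (PT9.D0 M)) κ ⟨_, hpS'⟩ Q' ?_ hid hG ?_ ?_ ?_ Nat.card_pos Nat.card_pos
    (fun q => Nat.card_pos)
  · rw [hmemQ']
    exact fun h => (Finset.disjoint_left.1 hdisj hpS) h
  · show Nat.card (extTop S₀ Q M L ⟨_, hpS'⟩) * _ * _ ≤ _
    rw [extTop_of_mem S₀ Q M L ⟨_, hpS'⟩ hpS]
    exact hP
  · intro q hqQ hqp
    have hq0 : q.1 ∈ S₀ := by
      rcases Finset.mem_union.1 q.2 with h | h
      · exact h
      · exact absurd ((hmemQ' q).2 h) hqQ
    show Nat.card (extTop S₀ Q M L q) * _ ≤ _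
    rw [extTop_of_mem S₀ Q M L q hq0]
    exact hq ⟨q.1, hq0⟩ fun h => hqp (Subtype.ext h)
  · intro q hqQ
    have hqQ0 : q.1 ∈ Q := (hmemQ' q).1 hqQ
    have hq0 : q.1 ∉ S₀ := fun h => (Finset.disjoint_left.1 hdisj h) hqQ0
    show Nat.card (extTop S₀ Q M L q) * _ ≤ _
    rw [extTop_of_not_mem S₀ Q M L q hq0]
    have h1 : Nat.card (⊤ : Submodule (ZMod p) (H1loc M q.1)) = Nat.card (H1loc M q.1) :=
      Nat.card_congr (Submodule.topEquiv (R := ZMod p) (M := H1loc M q.1)).toEquiv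
    rw [h1, mul_comm]
    exact Nat.mul_le_mul_right _ (hT q.1 hqQ0)

end Fermat.Agent.S56lib.Main
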