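/-
S56lib / Main / H0 (lead).  `H⁰(G_q, M)` as a submodule of `M` — the ONE spelling used by the local Euler
characteristic inequalities (N4), (N5), the local bounds (N7) and the final assembly.
-/
import Mathlib
import Fermat.Agent.S55lib.Iface.Top

set_option autoImplicit false

noncomputable section

namespace Fermat.Agent.S56lib.Main

open Fermat.Agent.S55lib

/-- `H⁰(G_q, M)`: the elements of `M` fixed by the image of the local Galois group at `q` -/
def H0loc {k : Type} [CommRing k] (M : Rep.{0} k GQ) (q : Nat.Primes) : Submodule k M where
  carrier := {m | ∀ g : Gloc q, M.ρ (rloc q g) m = m}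
  add_mem' := fun {a b} ha hb g => by rw [map_add, ha g, hb g]
  zero_mem' := fun g => map_zero _
  smul_mem' := fun c a ha g => by rw [map_smul, ha g]

lemma mem_H0loc {k : Type} [CommRing k] (M : Rep.{0} k GQ) (q : Nat.Primes) (m : M) :
    m ∈ H0loc M q ↔ ∀ g : Gloc q, M.ρ (rloc q g) m = m := Iff.rfl

/-- it is the module of invariants of the restricted representation -/
lemma H0loc_eq_invariants {k : Type} [CommRing k] (M : Rep.{0} k GQ) (q : Nat.Primes) :
    H0loc M q = Representation.invariants (M.ρ.comp (rloc q)) := by
  ext m
  rfl

end Fermat.Agent.S56lib.Main
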