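/-
S56lib / Main / Iface (lead).  **The interface between the local teams and the final assembly.**

* `H0loc M q`         : `H⁰(G_q, M)` as a submodule of `M` (in `Main/H0.lean`; used by the Euler
                        characteristic inequalities (N4), (N5) and by the local bounds (N7));
* `HasLocalCond 𝒟 q B` : there is a local condition `L_q ≤ H¹(G_q, ad⁰ρ̄)` with at most `B` elements
                        which contains the localisation at `q` of the class of every cocycle whose
                        deformation to `k[ε]` satisfies `𝒟`.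

The deliverables of the local teams are, for `M = Dict.adRep p rb`, `k` the residue field:
* `q ∈ Smin`, `q ≠ p`  : `HasLocalCond 𝒟 q (Nat.card (H0loc M q))` for every `𝒟` implying
                         `IsUnipotentOnInertiaAt q`;
* `q = p`              : `HasLocalCond 𝒟 p (Nat.card (H0loc M p) * Nat.card k)` for
                         `𝒟 = strictOrdinaryCondition 𝒪 p S'` resp. `flatCondition 𝒪 p S'`.
-/
import Mathlib
import Fermat.Agent.S56lib.Dict.SelmerClass
import Fermat.Agent.S56lib.Main.H0

set_option autoImplicit false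
set_option linter.unusedSectionVars false

noncomputable section

namespace Fermat.Agent.S56lib.Main

open IsLocalRing Fermat.Agent.TeamA Fermat.Agent.TeamA.Rep Fermat.Agent.S55lib
  Fermat.Agent.S56lib.Dict

attribute [local instance] dualNumberAlgebra

section

variable {𝒪 : Type} [CommRing 𝒪] [IsDomain 𝒪] [IsDiscreteValuationRing 𝒪]
  [IsAdicComplete (maximalIdeal 𝒪) 𝒪] [Finite (ResidueField 𝒪)]
variable (p : ℕ) [Fact p.Prime] [CharP (ResidueField 𝒪) p]
  (rb : GQ →* Matrix (Fin 2) (Fin 2) (ResidueField 𝒪))

/-- **Local package at `q`.**  A local condition with at most `B` elements containing the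
localisations of all `𝒟`-classes. -/
def HasLocalCond
    (𝒟 : ∀ ⦃A : Type⦄ [CommRing A] [IsLocalRing A] [Algebra 𝒪 A], GaloisRepAdic A → Prop)
    (q : Nat.Primes) (B : ℕ) : Prop :=
  ∃ L : Submodule (ZMod p) (H1loc (adRep p rb) q), Nat.card L ≤ B ∧
    ∀ (S : Finset Nat.Primes) (c : GQ → Matrix (Fin 2) (Fin 2) (ResidueField 𝒪))
      (hunr : IsUnrCocycle S rb c) (hc : IsCocycle rb c) (hs : IsSmoothCochain rb c),
      𝒟 (liftRep rb c hc hs) → loc1 S (adRep p rb) q (adClass p hunr) ∈ L

variable {p rb}

/-- a local package for a weaker condition is a local package for a stronger one -/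
lemma HasLocalCond.mono
    {𝒟 𝒟' : ∀ ⦃A : Type⦄ [CommRing A] [IsLocalRing A] [Algebra 𝒪 A], GaloisRepAdic A → Prop}
    {q : Nat.Primes} {B B' : ℕ} (h : HasLocalCond p rb 𝒟 q B) (hB : B ≤ B')
    (h𝒟 : ∀ ρ : GaloisRepAdic (DualNumber (ResidueField 𝒪)), 𝒟' ρ → 𝒟 ρ) :
    HasLocalCond p rb 𝒟' q B' := by
  obtain ⟨L, hL, hmem⟩ := h
  exact ⟨L, hL.trans hB, fun S c hunr hc hs hd => hmem S c hunr hc hs (h𝒟 _ hd)⟩

end

end Fermat.Agent.S56lib.Main
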