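/-
S56lib / Main / Bound (lead).  **From the numerical inputs (N3)–(N9) and the local packages to the
hypothesis of the dictionary**: a finite set `W ⊆ H¹(G_{S₀ ∪ Q}, ad⁰ρ̄)` containing the classes of all
Selmer cocycles, with `|W| ≤ |k| ^ |Q|`.
-/
import Mathlib
import Fermat.Agent.S56lib.Main.Count
import Fermat.Agent.S56lib.Main.Iface

set_option autoImplicit false
set_option linter.unusedSectionVars false
set_option linter.style.haveILetI false

noncomputable section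

namespace Fermat.Agent.S56lib.Main

open IsLocalRing Fermat.Agent.TeamA Fermat.Agent.TeamA.Rep Fermat.Agent.S55lib
  Fermat.Agent.S56lib.Dict Fermat.Agent.S56lib.PT9a ExtCitation

section Card

variable {K : Type} [Field K]

/-- trace-zero `2 × 2` matrices are `K³` -/
def sl2Equiv : sl2 K ≃ K × K × K where
  toFun X := (X.1 0 0, X.1 0 1, X.1 1 0)
  invFun t := ⟨!![t.1, t.2.1; t.2.2, -t.1], by
    rw [mem_sl2_iff, Matrix.trace_fin_two]
    simp⟩
  left_inv X := by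
    apply Subtype.ext
    have h := (mem_sl2_iff X.1).1 X.2
    rw [Matrix.trace_fin_two] at h
    ext i j
    fin_cases i <;> fin_cases j <;> simp
    linear_combination (-1 : K) * h
  right_inv t := by
    obtain ⟨a, b, c⟩ := t
    simp

lemma card_sl2 [Finite K] : Nat.card (sl2 K) = Nat.card K ^ 3 := by
  rw [Nat.card_congr (sl2Equiv (K := K)), Nat.card_prod, Nat.card_prod]
  ring

end Card

attribute [local instance] dualNumberAlgebra

section

variable {𝒪 : Type} [CommRing 𝒪] [IsDomain 𝒪] [IsDiscreteValuationRing 𝒪]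
  [IsAdicComplete (maximalIdeal 𝒪) 𝒪] [Finite (ResidueField 𝒪)]
variable {p : ℕ} [hp : Fact p.Prime] [CharP (ResidueField 𝒪) p]
  {rb : GQ →* Matrix (Fin 2) (Fin 2) (ResidueField 𝒪)}

lemma card_adRep : Nat.card (adRep p rb) = Nat.card (ResidueField 𝒪) ^ 3 :=
  card_sl2 (K := ResidueField 𝒪)

/-- the class of the zero cocycle is zero -/
lemma adClass_zero {S : Finset Nat.Primes}
    (h0 : IsUnrCocycle S rb (0 : GQ → Matrix (Fin 2) (Fin 2) (ResidueField 𝒪))) :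
    adClass p h0 = 0 := by
  unfold adClass
  have : (⟨_, toAd_mem_Z1 p h0⟩ : ↥(Sm.Z1 (MonoidHom.id GQ) (LevelClass.unr S) (adRep p rb))) = 0 := by
    apply Subtype.ext
    funext g
    apply adVal_injective p
    rfl
  rw [this, map_zero]

/-- **The Selmer bound in the form needed by the dictionary.** -/
theorem exists_selmer_set (hp2 : p ≠ 2) (S₀ Q : Finset Nat.Primes)
    (hpS : (⟨p, hp.out⟩ : Nat.Primes) ∈ S₀) (hdisj : Disjoint S₀ Q)
    (hM : Sm.IsSmooth (MonoidHom.id GQ) (LevelClass.unr (S₀ ∪ Q)) (adRep p rb))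
    (𝒟 : ∀ ⦃A : Type⦄ [CommRing A] [IsLocalRing A] [Algebra 𝒪 A], GaloisRepAdic A → Prop)
    (hunr : ∀ c, IsSelmerCocycle 𝒟 rb c → IsUnrCocycle (S₀ ∪ Q) rb c)
    -- the local packages (N7)
    (hlocp : HasLocalCond p rb 𝒟 ⟨p, hp.out⟩
      (Nat.card (H0loc (adRep p rb) ⟨p, hp.out⟩) * Nat.card (ResidueField 𝒪)))
    (hlocq : ∀ q ∈ S₀, q ≠ (⟨p, hp.out⟩ : Nat.Primes) →
      HasLocalCond p rb 𝒟 q (Nat.card (H0loc (adRep p rb) q)))
    -- the dual Selmer group vanishes (Taylor–Wiles primes)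
    (hkill : ∀ x : H1S (S₀ ∪ Q) ((adRep p rb).dualTwist (cycloChar p)),
      (∀ q ∈ Q, loc1 (S₀ ∪ Q) ((adRep p rb).dualTwist (cycloChar p)) q x = 0) → x = 0)
    -- (N3), (N8), (N9): global Euler characteristic
    (c₀ : GQ)
    (hN3 : Nat.card (H1S (S₀ ∪ Q) (adRep p rb)) *
        Nat.card {m : adRep p rb // (adRep p rb).ρ c₀ m = m} ≤
      Nat.card (H2S (S₀ ∪ Q) (adRep p rb)) * Nat.card (adRep p rb) *
        Nat.card (adRep p rb).ρ.invariants)
    (hN8 : Nat.card (ResidueField 𝒪) ≤ Nat.card {m : adRep p rb // (adRep p rb).ρ c₀ m = m})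
    (hN9 : Nat.card (adRep p rb).ρ.invariants = 1)
    -- (N4), (N5): local Euler characteristic
    (hN4 : Nat.card (H0loc (adRep p rb) ⟨p, hp.out⟩) * Nat.card (H2loc (adRep p rb) ⟨p, hp.out⟩) *
        Nat.card (adRep p rb) ≤ Nat.card (H1loc (adRep p rb) ⟨p, hp.out⟩))
    (hN5 : ∀ q ∈ S₀, q ≠ (⟨p, hp.out⟩ : Nat.Primes) →
      Nat.card (H0loc (adRep p rb) q) * Nat.card (H2loc (adRep p rb) q) ≤
        Nat.card (H1loc (adRep p rb) q))
    -- (N6): Taylor–Wiles primes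
    (hN6 : ∀ q ∈ Q, Nat.card (H2loc (adRep p rb) q) ≤ Nat.card (ResidueField 𝒪)) :
    ∃ W : Set (H1S (S₀ ∪ Q) (adRep p rb)), Finite W ∧
      (∀ c (hc : IsSelmerCocycle 𝒟 rb c), adClass p (hunr c hc) ∈ W) ∧
      Nat.card W ≤ Nat.card (ResidueField 𝒪) ^ Q.card := by
  classical
  set M := adRep p rb with hMdef
  set κ := Nat.card (ResidueField 𝒪) with hκ
  have hκpos : 0 < κ := Nat.card_pos
  have hpS' : (⟨p, hp.out⟩ : Nat.Primes) ∈ S₀ ∪ Q := Finset.mem_union_left _ hpS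
  -- choose the local conditions
  obtain ⟨Lp, hLp, hmemp⟩ := hlocp
  have hex : ∀ q : S₀, ∃ L : Submodule (ZMod p) (H1loc M q.1),
      (q.1 = ⟨p, hp.out⟩ → Nat.card L ≤ Nat.card (H0loc M ⟨p, hp.out⟩) * κ) ∧
      (q.1 ≠ ⟨p, hp.out⟩ → Nat.card L ≤ Nat.card (H0loc M q.1)) ∧
      ∀ (S : Finset Nat.Primes) (c : GQ → Matrix (Fin 2) (Fin 2) (ResidueField 𝒪))
        (hu : IsUnrCocycle S rb c) (hc : IsCocycle rb c) (hs : IsSmoothCochain rb c),
        𝒟 (liftRep rb c hc hs) → loc1 S M q.1 (adClass p hu) ∈ L := by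
    intro q
    by_cases hqp : q.1 = ⟨p, hp.out⟩
    · rw [hqp]
      exact ⟨Lp, fun _ => hLp, fun h => absurd rfl h, hmemp⟩
    · obtain ⟨L, hL, hmem⟩ := hlocq q.1 q.2 hqp
      exact ⟨L, fun h => absurd h hqp, fun _ => hL, hmem⟩
  choose L hLcardp hLcardq hLmem using hex
  haveI f1 : Finite (H1S (S₀ ∪ Q) M) := Fin.finite_H1S (S₀ ∪ Q) M hp2 hpS' hM
  refine ⟨(selmer (S₀ ∪ Q) M (extTop S₀ Q M L) : Set (H1S (S₀ ∪ Q) M)),
    Finite.of_injective _ Subtype.val_injective, ?_, ?_⟩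
  · -- membership
    intro c hc
    rw [SetLike.mem_coe, mem_selmer]
    intro q
    by_cases hq0 : q.1 ∈ S₀
    · rw [extTop_of_mem S₀ Q M L q hq0]
      obtain ⟨hcc, hcs, h0 | hd⟩ := hc
      · subst h0
        rw [adClass_zero, map_zero]
        exact Submodule.zero_mem _
      · exact hLmem ⟨q.1, hq0⟩ (S₀ ∪ Q) c _ hcc hcs hd
    · rw [extTop_of_not_mem S₀ Q M L q hq0]
      exact Submodule.mem_top
  · -- the count
    have hMcard : Nat.card M = κ ^ 3 := card_adRep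
    refine card_selmer_le S₀ Q M hp2 hpS hdisj hM κ L hkill ?_ ?_ ?_ hN6
    · -- global
      rw [hN9, mul_one, hMcard] at hN3
      have h1 : Nat.card (H1S (S₀ ∪ Q) M) * κ ≤ Nat.card (H2S (S₀ ∪ Q) M) * κ ^ 2 * κ :=
        calc Nat.card (H1S (S₀ ∪ Q) M) * κ
            ≤ Nat.card (H1S (S₀ ∪ Q) M) * Nat.card {m : M // M.ρ c₀ m = m} :=
              Nat.mul_le_mul_left _ hN8
          _ ≤ Nat.card (H2S (S₀ ∪ Q) M) * κ ^ 3 := hN3
          _ = Nat.card (H2S (S₀ ∪ Q) M) * κ ^ 2 * κ := by ring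
      exact Nat.le_of_mul_le_mul_right h1 hκpos
    · -- at `p`
      rw [hMcard] at hN4
      calc Nat.card (L ⟨_, hpS⟩) * Nat.card (H2loc M ⟨p, hp.out⟩) * κ ^ 2
          ≤ (Nat.card (H0loc M ⟨p, hp.out⟩) * κ) * Nat.card (H2loc M ⟨p, hp.out⟩) * κ ^ 2 :=
            Nat.mul_le_mul_right _ (Nat.mul_le_mul_right _ (hLcardp ⟨_, hpS⟩ rfl))
        _ = Nat.card (H0loc M ⟨p, hp.out⟩) * Nat.card (H2loc M ⟨p, hp.out⟩) * κ ^ 3 := by ring
        _ ≤ _ := hN4
    · -- at `q ≠ p`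
      intro q hqp
      exact (Nat.mul_le_mul_right _ (hLcardq q hqp)).trans (hN5 q.1 q.2 hqp)

end

end Fermat.Agent.S56lib.Main
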