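/-
S56lib / Main / Setup (lead).  The bookkeeping which turns the hypotheses of S56 into the inputs of
`TWSel.exists_TW_kill`, `Main.exists_selmer_set` and the dictionary:

* `exists_level_of_hom`   : a homomorphism from `G_ℚ` which factors through a finite level and is trivial
                             on the inertia groups outside `S` is trivial on `Gal(ℚ̄/F)` for a level `F`
                             unramified outside `S` (the field cut out by the kernel);
* `charP_residueField`    : `CharP k p` from `(p : 𝒪) ∈ 𝔪`;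
* `resHom_eq_one_iff`     : `rb σ = 1 ↔ ρ̄ σ = 1`;
* levels for `ρ̄`, `ad⁰ρ̄`, `ad⁰ρ̄^∨(1)`; smoothness of `ad⁰ρ̄`;
* `det_resHom_conj`       : `det ρ̄(c) = -1` for `c` inverting the `p`-th roots of unity.
-/
import Mathlib
import Fermat.Agent.S56lib.Dict.SelmerClass
import Fermat.Agent.S56lib.TWSel.Kill

set_option autoImplicit false
set_option linter.unusedSectionVars false
set_option linter.style.haveILetI false

noncomputable section

namespace Fermat.Agent.S56lib.Main

open IsLocalRing Fermat.Agent.TeamA Fermat.Agent.TeamA.Rep Fermat.Agent.S55lib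
  Fermat.Agent.S56lib.Dict ExtCitation

/-- the field cut out by the kernel of a homomorphism unramified outside `S` -/
theorem exists_level_of_hom (S : Finset Nat.Primes) {N : Type*} [MulOneClass N] (f : GQ →* N)
    (hfin : ∃ L : FieldQ, FiniteDimensional ℚ L ∧ ∀ s ∈ L.fixingSubgroup, f s = 1)
    (hur : ∀ q : Nat.Primes, q ∉ S → ∀ P : ValuationSubring Qbar, P.LiesOverPrime (q : ℕ) →
      ∀ σ ∈ P.inertiaSubgroupIn ℚ, f σ = 1) :
    ∃ F : FieldQ, F.IsUnramifiedOutside S ∧ ∀ s ∈ F.fixingSubgroup, f s = 1 := by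
  classical
  have : IsGalois ℚ (AlgebraicClosure ℚ) := ⟨⟩
  obtain ⟨L, hL, hLf⟩ := hfin
  let K : Subgroup GQ := MonoidHom.ker f
  have hLK : L.fixingSubgroup ≤ K := fun s hs => MonoidHom.mem_ker.2 (hLf s hs)
  have hKopen : IsOpen (K : Set GQ) :=
    Subgroup.isOpen_mono hLK (IntermediateField.fixingSubgroup_isOpen L)
  let Kc : ClosedSubgroup GQ := ⟨K, (OpenSubgroup.isClosed ⟨K, hKopen⟩ : _)⟩
  let F' : FieldQ := IntermediateField.fixedField K
  have hF'fix : F'.fixingSubgroup = K := InfiniteGalois.fixingSubgroup_fixedField Kc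
  have hF'le : F' ≤ L := by
    have h1 : IntermediateField.fixedField L.fixingSubgroup = L :=
      InfiniteGalois.fixedField_fixingSubgroup L
    rw [← h1]
    exact IntermediateField.fixedField_antitone hLK
  refine ⟨F', ⟨?_, fun q hq A hA σ hσ => ?_⟩, fun s hs => ?_⟩
  · exact FiniteDimensional.of_injective (IntermediateField.inclusion hF'le).toLinearMap
      (IntermediateField.inclusion_injective hF'le)
  · rw [hF'fix]
    exact MonoidHom.mem_ker.2 (hur q hq A hA σ hσ)
  · rw [hF'fix] at hs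
    exact MonoidHom.mem_ker.1 hs

section Residual

variable {𝒪 : Type} [CommRing 𝒪] [IsDomain 𝒪] [IsDiscreteValuationRing 𝒪]
  [IsAdicComplete (maximalIdeal 𝒪) 𝒪] [Finite (ResidueField 𝒪)]

/-- the residue field has characteristic `p` -/
theorem charP_residueField (p : ℕ) [hp : Fact p.Prime] (hp𝒪 : (p : 𝒪) ∈ maximalIdeal 𝒪) :
    CharP (ResidueField 𝒪) p := by
  have h0 : ((p : ℕ) : ResidueField 𝒪) = 0 := by
    have h1 : residue 𝒪 (p : 𝒪) = 0 := (residue_eq_zero_iff _).2 hp𝒪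
    rwa [map_natCast] at h1
  exact (CharP.charP_iff_prime_eq_zero hp.out).2 h0

variable (ρbar : ResidualGaloisRep (ResidueField 𝒪))
  (bbar : Module.Basis (Fin 2) (ResidueField 𝒪) ρbar.V)

theorem resHom_eq_one_iff (g : GQ) : resHom ρbar bbar g = 1 ↔ ρbar.ρ g = 1 := by
  rw [Dict.resHom_apply, matOfRes]
  constructor
  · intro h
    apply (LinearMap.toMatrix bbar bbar).injective
    rw [h, LinearMap.toMatrix_one]
  · intro h
    rw [h, LinearMap.toMatrix_one]

/-- `ρ̄` factors through a finite level, fixing-subgroup form -/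
theorem exists_finite_level_rhobar :
    ∃ L : FieldQ, FiniteDimensional ℚ L ∧ ∀ s ∈ L.fixingSubgroup, ρbar.ρ s = 1 := by
  obtain ⟨L, hL, h⟩ := ρbar.factorsThroughFiniteLevel
  exact ⟨L, hL, fun s hs => h s fun x hx => (IntermediateField.mem_fixingSubgroup_iff _ _).1 hs x hx⟩

theorem exists_finite_level_resHom :
    ∃ L : FieldQ, FiniteDimensional ℚ L ∧ ∀ s ∈ L.fixingSubgroup, resHom ρbar bbar s = 1 := by
  obtain ⟨L, hL, h⟩ := exists_finite_level_rhobar ρbar
  exact ⟨L, hL, fun s hs => (resHom_eq_one_iff ρbar bbar s).2 (h s hs)⟩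

variable {ρbar}

/-- `ρ̄` is trivial on a level unramified outside `S` if it is unramified outside `S` -/
theorem exists_level_rhobar (S : Finset Nat.Primes)
    (hur : ∀ q : Nat.Primes, q ∉ S → ρbar.IsUnramifiedAt (q : ℕ)) :
    ∃ Fρ : FieldQ, Fρ.IsUnramifiedOutside S ∧ ∀ s ∈ Fρ.fixingSubgroup, ρbar.ρ s = 1 :=
  exists_level_of_hom S ρbar.ρ (exists_finite_level_rhobar ρbar)
    fun q hq P hP σ hσ => hur q hq P hP σ hσ

variable (p : ℕ) [hp : Fact p.Prime] [CharP (ResidueField 𝒪) p]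

/-- `ad⁰ρ̄` is smooth for `unr S` -/
theorem adRep_isSmooth_of_unramified (S : Finset Nat.Primes)
    (hur : ∀ q : Nat.Primes, q ∉ S → ρbar.IsUnramifiedAt (q : ℕ)) :
    Sm.IsSmooth (MonoidHom.id GQ) (LevelClass.unr S) (adRep p (resHom ρbar bbar)) :=
  adRep_isSmooth p S (resHom ρbar bbar) (exists_finite_level_resHom ρbar bbar)
    fun q hq P hP σ hσ => (resHom_eq_one_iff ρbar bbar σ).2 (hur q hq P hP σ hσ)

/-- `ad⁰ρ̄^∨(1)` is trivial on a level unramified outside `S ∋ p` -/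
theorem exists_level_dualTwist (S : Finset Nat.Primes) (hpS : (⟨p, hp.out⟩ : Nat.Primes) ∈ S)
    (hur : ∀ q : Nat.Primes, q ∉ S → ρbar.IsUnramifiedAt (q : ℕ)) :
    ∃ F₀ : FieldQ, F₀.IsUnramifiedOutside S ∧ ∀ s ∈ F₀.fixingSubgroup,
      ((adRep p (resHom ρbar bbar)).dualTwist (cycloChar p)).ρ s = 1 := by
  obtain ⟨F₁, hF₁, h1⟩ := exists_level_rhobar S hur
  obtain ⟨F₂, hF₂, h2⟩ := exists_level_cycloChar_eq_one (p := p) S hpS
  refine ⟨F₁ ⊔ F₂, hF₁.sup hF₂, fun s hs => ?_⟩
  have hs1 : s ∈ F₁.fixingSubgroup := IntermediateField.fixingSubgroup_antitone le_sup_left hs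
  have hs2 : s ∈ F₂.fixingSubgroup := IntermediateField.fixingSubgroup_antitone le_sup_right hs
  have hρs : (adRep p (resHom ρbar bbar)).ρ s⁻¹ = 1 :=
    adRep_ρ_eq_one_of_rb_eq_one p _ ((resHom_eq_one_iff ρbar bbar s⁻¹).2
      (h1 s⁻¹ (inv_mem hs1)))
  apply LinearMap.ext
  intro f
  rw [Rep.dualTwist_ρ_apply, h2 s hs2, hρs]
  simp only [Units.val_one, one_smul, Module.End.one_apply]
  exact LinearMap.comp_id f

end Residual

end Fermat.Agent.S56lib.Main

namespace Fermat.Agent.S56lib.Main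

open IsLocalRing Fermat.Agent.TeamA Fermat.Agent.TeamA.Rep Fermat.Agent.S55lib
  Fermat.Agent.S56lib.Dict ExtCitation

section Det

variable {𝒪 : Type} [CommRing 𝒪] [IsDomain 𝒪] [IsDiscreteValuationRing 𝒪]
  [IsAdicComplete (maximalIdeal 𝒪) 𝒪] [Finite (ResidueField 𝒪)]
  {ρbar : ResidualGaloisRep (ResidueField 𝒪)}
  (bbar : Module.Basis (Fin 2) (ResidueField 𝒪) ρbar.V)
  (p : ℕ) [hp : Fact p.Prime] [CharP (ResidueField 𝒪) p]

/-- `det ρ̄(c) = -1` if `c` inverts the `p`-th roots of unity -/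
theorem det_rhobar_of_inv
    (hdet : (GaloisRepAdic.ofResidualGaloisRep ρbar).DetIsCyclotomic p) (c : GQ)
    (hc : ∀ μ : Qbar, μ ^ p = 1 → c μ = μ⁻¹) : LinearMap.det (ρbar.ρ c) = -1 := by
  have hp1 : 1 ≤ p := hp.out.one_lt.le
  have h := hdet.2 1 c (p - 1) (fun μ hμ => by
    rw [pow_one] at hμ
    rw [hc μ hμ]
    have hμ0 : μ ≠ 0 := by
      rintro rfl
      rw [zero_pow hp.out.ne_zero] at hμ
      exact zero_ne_one hμ
    apply inv_eq_of_mul_eq_one_left
    rw [← pow_succ, Nat.sub_add_cancel hp1, hμ])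
  have h0 : (((p ^ 1 : ℕ) : ℕ) : ResidueField 𝒪) = 0 := by
    rw [pow_one]
    exact CharP.cast_eq_zero _ p
  rw [h0, Ideal.span_singleton_eq_bot.mpr rfl, Ideal.mem_bot, sub_eq_zero] at h
  have h1 : LinearMap.det (ρbar.ρ c) = ((p - 1 : ℕ) : ResidueField 𝒪) := h
  rw [h1, Nat.cast_sub hp1, CharP.cast_eq_zero, Nat.cast_one, zero_sub]

theorem det_resHom (g : GQ) : (resHom ρbar bbar g).det = LinearMap.det (ρbar.ρ g) := by
  rw [Dict.resHom_apply, matOfRes, LinearMap.det_toMatrix]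

end Det

end Fermat.Agent.S56lib.Main
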