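/-
S56lib / Main / Outer (lead).  **One half of S56, for a family of deformation conditions `𝒟 S'`**,
from: the Taylor–Wiles primes (`TWSel.exists_TW_kill`, which needs `GoodSigma`), the Selmer bound
(`Main.exists_selmer_set`, which needs the local packages and the Euler characteristic inequalities),
and the dictionary (`hdict`, helper4's `exists_surjective_of_card_le_*`).
-/
import Mathlib
import Fermat.Agent.S56lib.Main.Bound
import Fermat.Agent.S56lib.Main.Setup
import Fermat.Agent.S56lib.PT9a.TWLocal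

set_option autoImplicit false
set_option linter.unusedSectionVars false
set_option linter.style.haveILetI false

noncomputable section

namespace Fermat.Agent.S56lib.Main

open IsLocalRing Polynomial Fermat.Agent.TeamA Fermat.Agent.TeamA.Rep Fermat.Agent.S55lib
  Fermat.Agent.S56lib.Dict Fermat.Agent.S56lib.PT9a Fermat.Agent.S56lib.TWSel ExtCitation

attribute [local instance] dualNumberAlgebra

/-- the characteristic polynomial of a scalar endomorphism of a plane -/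
lemma charpoly_smul_one {K : Type} [Field K] {V : Type} [AddCommGroup V] [Module K V]
    [Module.Finite K V] (hV : Module.finrank K V = 2) (c : K) :
    LinearMap.charpoly (c • (1 : Module.End K V)) = (X - C c) ^ 2 := by
  have := LinearMap.charpoly_toMatrix (c • (1 : Module.End K V)) (Module.finBasisOfFinrankEq K V hV)
  rw [← this]
  simp [Matrix.charpoly, Matrix.charmatrix, Matrix.det_fin_two, sq]

/-- an endomorphism of a plane with two distinct eigenvalues is not scalar -/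
lemma not_scalar_of_charpoly {K : Type} [Field K] {V : Type} [AddCommGroup V] [Module K V]
    [Module.Finite K V] (hV : Module.finrank K V = 2) (f : Module.End K V) {α β : K} (hαβ : α ≠ β)
    (hf : LinearMap.charpoly f = (X - C α) * (X - C β)) (c : K) : f ≠ c • (1 : Module.End K V) := by
  intro h
  rw [h, charpoly_smul_one hV] at hf
  have h1 := congrArg (Polynomial.eval α) hf
  have h2 := congrArg (Polynomial.eval β) hf
  simp only [eval_pow, eval_sub, eval_X, eval_C, eval_mul, sub_self, zero_mul, mul_zero] at h1 h2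
  have h1' : α = c := sub_eq_zero.1 ((pow_eq_zero_iff two_ne_zero).1 h1)
  have h2' : β = c := sub_eq_zero.1 ((pow_eq_zero_iff two_ne_zero).1 h2)
  exact hαβ (h1'.trans h2'.symm)

section Half

variable {𝒪 : Type} [CommRing 𝒪] [IsDomain 𝒪] [IsDiscreteValuationRing 𝒪]
  [IsAdicComplete (maximalIdeal 𝒪) 𝒪] [Finite (ResidueField 𝒪)]

/-- the primes of a finset of naturals -/
def primesIn (T : Finset ℕ) : Finset Nat.Primes := (T.subtype Nat.Prime : Finset {q : ℕ // q.Prime})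

lemma mem_primesIn {T : Finset ℕ} {q : Nat.Primes} : q ∈ primesIn T ↔ (q : ℕ) ∈ T :=
  Finset.mem_subtype

lemma mem_primesOf {r : ℕ} (qv : Fin r → ℕ) (hqv : ∀ i, (qv i).Prime) (q : Nat.Primes) :
    q ∈ primesOf qv hqv ↔ ∃ i, (⟨qv i, hqv i⟩ : Nat.Primes) = q := by
  unfold primesOf
  rw [Finset.mem_image]
  constructor
  · rintro ⟨i, -, hi⟩
    exact ⟨i, hi⟩
  · rintro ⟨i, hi⟩
    exact ⟨i, Finset.mem_univ _, hi⟩

lemma card_primesOf {r : ℕ} (qv : Fin r → ℕ) (hqv : ∀ i, (qv i).Prime)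
    (hinj : Function.Injective qv) : (primesOf qv hqv).card = r := by
  have h := Finset.card_image_of_injective (Finset.univ : Finset (Fin r))
    (f := fun i => (⟨qv i, hqv i⟩ : Nat.Primes)) (fun i j h => hinj (congrArg Subtype.val h))
  rw [Finset.card_univ, Fintype.card_fin] at h
  exact h

theorem half_of (p : ℕ) [hp : Fact p.Prime] (hp2 : p ≠ 2) [CharP (ResidueField 𝒪) p]
    (ρbar : ResidualGaloisRep (ResidueField 𝒪))
    (bbar : Module.Basis (Fin 2) (ResidueField 𝒪) ρbar.V)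
    (hsplit : ∀ σ : GQ, ∃ α β : ResidueField 𝒪,
      LinearMap.charpoly (ρbar.ρ σ) = (X - C α) * (X - C β))
    (S Smin : Finset ℕ) (hpSmin : p ∈ Smin) (hSmin : Smin ⊆ S)
    (hmin : ∀ q : ℕ, q.Prime → q ≠ p → (q ∈ Smin ↔ ¬ ρbar.IsUnramifiedAt q))
    (𝒟 : Finset ℕ → ∀ ⦃A : Type⦄ [CommRing A] [IsLocalRing A] [Algebra 𝒪 A], GaloisRepAdic A → Prop)
    -- the dictionary
    (hunr𝒟 : ∀ (S' : Finset ℕ) (SP : Finset Nat.Primes),
      (∀ q : Nat.Primes, q ∉ SP → (q : ℕ) ∉ S') →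
      ∀ c, IsSelmerCocycle (𝒟 S') (resHom ρbar bbar) c → IsUnrCocycle SP (resHom ρbar bbar) c)
    (hdict : ∀ (S' : Finset ℕ) (SP : Finset Nat.Primes)
      (hSP : ∀ q : Nat.Primes, q ∉ SP → (q : ℕ) ∉ S')
      (DQ : GaloisRep.DeformationRingData 𝒪 ρbar (𝒟 S')) (r : ℕ)
      (W : Set (H1S SP (adRep p (resHom ρbar bbar)))), Finite W →
      (∀ c (hc : IsSelmerCocycle (𝒟 S') (resHom ρbar bbar) c),
        adClass p (hunr𝒟 S' SP hSP c hc) ∈ W) →
      Nat.card W ≤ Nat.card (ResidueField 𝒪) ^ r →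
      ∃ γ : MvPowerSeries (Fin r) 𝒪 →ₐ[𝒪] DQ.R, Function.Surjective γ)
    -- the local packages (N7)
    (hlocp : ∀ S' : Finset ℕ, HasLocalCond p (resHom ρbar bbar) (𝒟 S') ⟨p, hp.out⟩
      (Nat.card (H0loc (adRep p (resHom ρbar bbar)) ⟨p, hp.out⟩) * Nat.card (ResidueField 𝒪)))
    (hlocq : ∀ (S' : Finset ℕ) (q : Nat.Primes), (q : ℕ) ∈ Smin → q ≠ (⟨p, hp.out⟩ : Nat.Primes) →
      HasLocalCond p (resHom ρbar bbar) (𝒟 S') q
        (Nat.card (H0loc (adRep p (resHom ρbar bbar)) q)))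
    -- the group theory (a1)+(a2)
    (hgood : ∀ n : ℕ, GoodSigma p ρbar ((adRep p (resHom ρbar bbar)).dualTwist (cycloChar p))
      (primesIn Smin) n)
    -- complex conjugation and the global Euler characteristic (N3), (N8), (N9)
    (c₀ : GQ)
    (hN3 : ∀ SP : Finset Nat.Primes, (⟨p, hp.out⟩ : Nat.Primes) ∈ SP →
      Sm.IsSmooth (MonoidHom.id GQ) (LevelClass.unr SP) (adRep p (resHom ρbar bbar)) →
      Nat.card (H1S SP (adRep p (resHom ρbar bbar))) *
          Nat.card {m : adRep p (resHom ρbar bbar) // (adRep p (resHom ρbar bbar)).ρ c₀ m = m} ≤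
        Nat.card (H2S SP (adRep p (resHom ρbar bbar))) * Nat.card (adRep p (resHom ρbar bbar)) *
          Nat.card (adRep p (resHom ρbar bbar)).ρ.invariants)
    (hN8 : Nat.card (ResidueField 𝒪) ≤
      Nat.card {m : adRep p (resHom ρbar bbar) // (adRep p (resHom ρbar bbar)).ρ c₀ m = m})
    (hN9 : Nat.card (adRep p (resHom ρbar bbar)).ρ.invariants = 1)
    -- the local Euler characteristics (N4), (N5)
    (hN4 : Nat.card (H0loc (adRep p (resHom ρbar bbar)) ⟨p, hp.out⟩) *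
        Nat.card (H2loc (adRep p (resHom ρbar bbar)) ⟨p, hp.out⟩) *
        Nat.card (adRep p (resHom ρbar bbar)) ≤
      Nat.card (H1loc (adRep p (resHom ρbar bbar)) ⟨p, hp.out⟩))
    (hN5 : ∀ q : Nat.Primes, (q : ℕ) ∈ Smin → q ≠ (⟨p, hp.out⟩ : Nat.Primes) →
      Nat.card (H0loc (adRep p (resHom ρbar bbar)) q) *
        Nat.card (H2loc (adRep p (resHom ρbar bbar)) q) ≤
      Nat.card (H1loc (adRep p (resHom ρbar bbar)) q)) :
    ∃ r : ℕ, ∀ n : ℕ, ∃ qv : Fin r → ℕ, Function.Injective qv ∧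
      (∀ i, (qv i).Prime ∧ qv i ∉ S ∧ p ^ (n + 1) ∣ qv i - 1) ∧
      (∀ i, ∀ P : ValuationSubring (AlgebraicClosure ℚ), P.LiesOverPrime (qv i) →
        ∀ φ : AlgebraicClosure ℚ ≃ₐ[ℚ] AlgebraicClosure ℚ, P.IsFrobeniusAt φ (qv i) →
          ∃ α β : ResidueField 𝒪, α ≠ β ∧
            LinearMap.charpoly (ρbar.ρ φ) = (X - C α) * (X - C β)) ∧
      ∀ DQ : GaloisRep.DeformationRingData 𝒪 ρbar (𝒟 (Smin ∪ Finset.univ.image qv)),
        ∃ γ : MvPowerSeries (Fin r) 𝒪 →ₐ[𝒪] DQ.R, Function.Surjective γ := by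
  classical
  set rb := resHom ρbar bbar with hrb
  set M := adRep p rb with hMdef
  set M' := M.dualTwist (cycloChar p) with hM'def
  set S₀ : Finset Nat.Primes := primesIn Smin with hS₀
  have hpS₀ : (⟨p, hp.out⟩ : Nat.Primes) ∈ S₀ := mem_primesIn.2 hpSmin
  -- `ρ̄` is unramified outside any set of primes containing `S₀`
  have hur : ∀ SP : Finset Nat.Primes, S₀ ⊆ SP → ∀ q : Nat.Primes, q ∉ SP →
      ρbar.IsUnramifiedAt (q : ℕ) := by
    intro SP hSP q hq
    have hq0 : (q : ℕ) ∉ Smin := fun h => hq (hSP (mem_primesIn.2 h))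
    have hqp : (q : ℕ) ≠ p := fun h => hq0 (h ▸ hpSmin)
    by_contra hcon
    exact hq0 ((hmin q q.2 hqp).2 hcon)
  have hM₀ : Sm.IsSmooth (MonoidHom.id GQ) (LevelClass.unr S₀) M :=
    adRep_isSmooth_of_unramified bbar p S₀ (hur S₀ (Finset.Subset.refl _))
  haveI : Finite (H1S S₀ M') :=
    Fin.finite_H1S S₀ M' hp2 hpS₀ (isSmooth_dualTwist S₀ hpS₀ M hM₀)
  refine ⟨Nat.card {x : H1S S₀ M' // x ≠ 0}, fun n => ?_⟩
  obtain ⟨qv, hinj, hqv, hqvS, hfrob, hkill⟩ :=
    exists_TW_kill p ρbar M' S₀ hsplit hpS₀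
      (exists_level_rhobar S₀ (hur S₀ (Finset.Subset.refl _)))
      (exists_level_dualTwist bbar p S₀ hpS₀ (hur S₀ (Finset.Subset.refl _)))
      S (fun q hq => hSmin (mem_primesIn.1 hq)) n (hgood n)
  refine ⟨qv, hinj, fun i => ⟨hqv i, (hqvS i).1, (hqvS i).2⟩, hfrob, ?_⟩
  set Q : Finset Nat.Primes := primesOf qv hqv with hQ
  set S' : Finset ℕ := Smin ∪ Finset.univ.image qv with hS'
  set SP : Finset Nat.Primes := S₀ ∪ Q with hSPdef
  have hmemQ : ∀ q : Nat.Primes, q ∈ Q ↔ ∃ i, (⟨qv i, hqv i⟩ : Nat.Primes) = q :=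
    fun q => mem_primesOf qv hqv q
  have hdisj : Disjoint S₀ Q := by
    rw [Finset.disjoint_left]
    intro q hq0 hqQ
    obtain ⟨i, rfl⟩ := (hmemQ q).1 hqQ
    exact (hqvS i).1 (hSmin (mem_primesIn.1 hq0))
  have hSP : ∀ q : Nat.Primes, q ∉ SP → (q : ℕ) ∉ S' := by
    intro q hq hqS'
    rcases Finset.mem_union.1 hqS' with h | h
    · exact hq (Finset.mem_union_left _ (mem_primesIn.2 h))
    · obtain ⟨i, -, hi⟩ := Finset.mem_image.1 h
      exact hq (Finset.mem_union_right _ ((hmemQ q).2 ⟨i, Subtype.ext hi⟩))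
  have hQcard : Q.card = Nat.card {x : H1S S₀ M' // x ≠ 0} := card_primesOf qv hqv hinj
  have hpSP : (⟨p, hp.out⟩ : Nat.Primes) ∈ SP := Finset.mem_union_left _ hpS₀
  have hM : Sm.IsSmooth (MonoidHom.id GQ) (LevelClass.unr SP) M :=
    adRep_isSmooth_of_unramified bbar p SP (hur SP Finset.subset_union_left)
  -- (N6) at the Taylor–Wiles primes
  have hN6 : ∀ q ∈ Q, Nat.card (H2loc M q) ≤ Nat.card (ResidueField 𝒪) := by
    intro q hqQ
    obtain ⟨i, rfl⟩ := (hmemQ q).1 hqQ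
    have hdvd : p ∣ qv i - 1 := (dvd_pow_self p (Nat.succ_ne_zero n)).trans (hqvS i).2
    have hqp : qv i ≠ p := by
      intro h
      rw [h] at hdvd
      exact absurd (Nat.le_of_dvd (Nat.sub_pos_of_lt hp.out.one_lt) hdvd)
        (by have := hp.out.one_lt; omega)
    obtain ⟨φ, hφ⟩ := exists_frobenius_primeLocalPlace ⟨qv i, hqv i⟩
    obtain ⟨α, β, hαβ, hchar⟩ := hfrob i _ (primeLocalPlace_liesOverPrime ⟨qv i, hqv i⟩) φ hφ
    have hns : ∀ c : ResidueField 𝒪, rb φ ≠ c • (1 : Matrix (Fin 2) (Fin 2) (ResidueField 𝒪)) := by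
      intro c hc
      apply not_scalar_of_charpoly ρbar.finrank_eq (ρbar.ρ φ) hαβ hchar c
      apply (LinearMap.toMatrix bbar bbar).injective
      rw [map_smul, LinearMap.toMatrix_one]
      exact hc
    exact card_H2loc_adRep_le hp2 SP hpSP rb hM ⟨⟨qv i, hqv i⟩, Finset.mem_union_right _ hqQ⟩
      hqp hdvd φ hφ hns
  obtain ⟨W, hWfin, hWmem, hWcard⟩ := exists_selmer_set (𝒪 := 𝒪) (rb := rb) hp2 S₀ Q hpS₀ hdisj hM
    (𝒟 S') (hunr𝒟 S' SP hSP) (hlocp S')
    (fun q hq hqp => hlocq S' q (mem_primesIn.1 hq) hqp)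
    hkill c₀ (hN3 SP hpSP hM) hN8 hN9 hN4
    (fun q hq hqp => hN5 q (mem_primesIn.1 hq) hqp) hN6
  intro DQ
  exact hdict S' SP hSP DQ _ W hWfin hWmem (hWcard.trans_eq (by rw [hQcard]))

end Half

end Fermat.Agent.S56lib.Main
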