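/-
S56lib / Main / Final (lead).  **S56 from its named inputs.**  `s56_of_inputs` has the hypotheses and the
conclusion of the frozen statement S56 plus the inputs still to be supplied:

* `hgood`  : the group theory (a1)+(a2) (`TWSel.GoodSigma`, helper2),
* `hN9`    : `H⁰(G_ℚ, ad⁰ρ̄) = 0` (helper2),
* `c₀, hN3` : complex conjugation and the global Euler characteristic inequality (helper1 & co.),
* `hN4, hN5` : the local Euler characteristic inequalities (helper1 & co.),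
* `hN8`    : `|ad⁰ρ̄^{c}| ≥ |k|` (helper4: `Dict.card_le_card_complexConj_invariants`),
* `hso_p, hfl_p, hunip_q` : the local packages (N7) (helper4, helper5, helper3).
-/
import Mathlib
import Fermat.Agent.S56lib.Main.Outer

set_option autoImplicit false
set_option linter.unusedSectionVars false
set_option linter.style.haveILetI false

noncomputable section

namespace Fermat.Agent.S56lib.Main

open IsLocalRing Polynomial Fermat.Agent.TeamA Fermat.Agent.TeamA.Rep Fermat.Agent.S55lib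
  Fermat.Agent.S56lib.Dict Fermat.Agent.S56lib.PT9a Fermat.Agent.S56lib.TWSel ExtCitation

attribute [local instance] dualNumberAlgebra

section

variable {𝒪 : Type} [CommRing 𝒪] [IsDomain 𝒪] [IsDiscreteValuationRing 𝒪]
  [IsAdicComplete (maximalIdeal 𝒪) 𝒪] [Finite (ResidueField 𝒪)]

/-- the strict-ordinary family of S56 -/
def 𝒟so (𝒪 : Type) [CommRing 𝒪] (p : ℕ) (Smin : Finset ℕ) (S' : Finset ℕ) :
    ∀ ⦃A : Type⦄ [CommRing A] [IsLocalRing A] [Algebra 𝒪 A], GaloisRepAdic A → Prop :=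
  fun _A _ _ _ ρ => GaloisRep.strictOrdinaryCondition 𝒪 p S' ρ ∧
    ∀ q ∈ Smin, q.Prime → q ≠ p → ρ.IsUnipotentOnInertiaAt q

/-- the flat family of S56 -/
def 𝒟fl (𝒪 : Type) [CommRing 𝒪] (p : ℕ) (Smin : Finset ℕ) (S' : Finset ℕ) :
    ∀ ⦃A : Type⦄ [CommRing A] [IsLocalRing A] [Algebra 𝒪 A], GaloisRepAdic A → Prop :=
  fun _A _ _ _ ρ => GaloisRep.flatCondition 𝒪 p S' ρ ∧
    ∀ q ∈ Smin, q.Prime → q ≠ p → ρ.IsUnipotentOnInertiaAt q

theorem s56_of_inputs (p : ℕ) [hp : Fact p.Prime] (hp2 : p ≠ 2)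
    (ρbar : ResidualGaloisRep (ResidueField 𝒪))
    (hsplit : ∀ σ : AlgebraicClosure ℚ ≃ₐ[ℚ] AlgebraicClosure ℚ,
      ∃ α β : ResidueField 𝒪, LinearMap.charpoly (ρbar.ρ σ) = (X - C α) * (X - C β))
    (S Smin : Finset ℕ) (hpSmin : p ∈ Smin) (hSmin : Smin ⊆ S)
    (hmin : ∀ q : ℕ, q.Prime → q ≠ p → (q ∈ Smin ↔ ¬ ρbar.IsUnramifiedAt q))
    (bbar : Module.Basis (Fin 2) (ResidueField 𝒪) ρbar.V)
    -- inputs
    (hCharP : CharP (ResidueField 𝒪) p)
    (hgood : ∀ n : ℕ, GoodSigma p ρbar ((adRep p (resHom ρbar bbar)).dualTwist (cycloChar p))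
      (primesIn Smin) n)
    (c₀ : GQ)
    (hN3 : ∀ SP : Finset Nat.Primes, (⟨p, hp.out⟩ : Nat.Primes) ∈ SP →
      Sm.IsSmooth (MonoidHom.id GQ) (LevelClass.unr SP) (adRep p (resHom ρbar bbar)) →
      Nat.card (H1S SP (adRep p (resHom ρbar bbar))) *
          Nat.card {m : adRep p (resHom ρbar bbar) // (adRep p (resHom ρbar bbar)).ρ c₀ m = m} ≤
        Nat.card (H2S SP (adRep p (resHom ρbar bbar))) * Nat.card (adRep p (resHom ρbar bbar)) *
          Nat.card (adRep p (resHom ρbar bbar)).ρ.invariants)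
    (hN8 : Nat.card (ResidueField 𝒪) ≤
      Nat.card {m : adRep p (resHom ρbar bbar) // (adRep p (resHom ρbar bbar)).ρ c₀ m = m})
    (hN9 : Nat.card (adRep p (resHom ρbar bbar)).ρ.invariants = 1)
    (hN4 : Nat.card (H0loc (adRep p (resHom ρbar bbar)) ⟨p, hp.out⟩) *
        Nat.card (H2loc (adRep p (resHom ρbar bbar)) ⟨p, hp.out⟩) *
        Nat.card (adRep p (resHom ρbar bbar)) ≤
      Nat.card (H1loc (adRep p (resHom ρbar bbar)) ⟨p, hp.out⟩))
    (hN5 : ∀ q : Nat.Primes, (q : ℕ) ∈ Smin → q ≠ (⟨p, hp.out⟩ : Nat.Primes) →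
      Nat.card (H0loc (adRep p (resHom ρbar bbar)) q) *
        Nat.card (H2loc (adRep p (resHom ρbar bbar)) q) ≤
      Nat.card (H1loc (adRep p (resHom ρbar bbar)) q))
    (hso_p : ∀ S' : Finset ℕ, HasLocalCond p (resHom ρbar bbar) (𝒟so 𝒪 p Smin S') ⟨p, hp.out⟩
      (Nat.card (H0loc (adRep p (resHom ρbar bbar)) ⟨p, hp.out⟩) * Nat.card (ResidueField 𝒪)))
    (hfl_p : ∀ S' : Finset ℕ, HasLocalCond p (resHom ρbar bbar) (𝒟fl 𝒪 p Smin S') ⟨p, hp.out⟩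
      (Nat.card (H0loc (adRep p (resHom ρbar bbar)) ⟨p, hp.out⟩) * Nat.card (ResidueField 𝒪)))
    (hso_q : ∀ (S' : Finset ℕ) (q : Nat.Primes), (q : ℕ) ∈ Smin → q ≠ (⟨p, hp.out⟩ : Nat.Primes) →
      HasLocalCond p (resHom ρbar bbar) (𝒟so 𝒪 p Smin S') q
        (Nat.card (H0loc (adRep p (resHom ρbar bbar)) q)))
    (hfl_q : ∀ (S' : Finset ℕ) (q : Nat.Primes), (q : ℕ) ∈ Smin → q ≠ (⟨p, hp.out⟩ : Nat.Primes) →
      HasLocalCond p (resHom ρbar bbar) (𝒟fl 𝒪 p Smin S') q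
        (Nat.card (H0loc (adRep p (resHom ρbar bbar)) q))) :
    (∃ r : ℕ, ∀ n : ℕ, ∃ qv : Fin r → ℕ, Function.Injective qv ∧
      (∀ i, (qv i).Prime ∧ qv i ∉ S ∧ p ^ (n + 1) ∣ qv i - 1) ∧
      (∀ i, ∀ P : ValuationSubring (AlgebraicClosure ℚ), P.LiesOverPrime (qv i) →
        ∀ φ : AlgebraicClosure ℚ ≃ₐ[ℚ] AlgebraicClosure ℚ, P.IsFrobeniusAt φ (qv i) →
          ∃ α β : ResidueField 𝒪, α ≠ β ∧ LinearMap.charpoly (ρbar.ρ φ) = (X - C α) * (X - C β)) ∧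
      ∀ DQ : GaloisRep.DeformationRingData 𝒪 ρbar (fun _A _ _ _ ρ =>
          GaloisRep.strictOrdinaryCondition 𝒪 p (Smin ∪ Finset.univ.image qv) ρ ∧
            ∀ q ∈ Smin, q.Prime → q ≠ p → ρ.IsUnipotentOnInertiaAt q),
        ∃ γ : MvPowerSeries (Fin r) 𝒪 →ₐ[𝒪] DQ.R, Function.Surjective γ) ∧
    (∃ r : ℕ, ∀ n : ℕ, ∃ qv : Fin r → ℕ, Function.Injective qv ∧
      (∀ i, (qv i).Prime ∧ qv i ∉ S ∧ p ^ (n + 1) ∣ qv i - 1) ∧
      (∀ i, ∀ P : ValuationSubring (AlgebraicClosure ℚ), P.LiesOverPrime (qv i) →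
        ∀ φ : AlgebraicClosure ℚ ≃ₐ[ℚ] AlgebraicClosure ℚ, P.IsFrobeniusAt φ (qv i) →
          ∃ α β : ResidueField 𝒪, α ≠ β ∧ LinearMap.charpoly (ρbar.ρ φ) = (X - C α) * (X - C β)) ∧
      ∀ DQ : GaloisRep.DeformationRingData 𝒪 ρbar (fun _A _ _ _ ρ =>
          GaloisRep.flatCondition 𝒪 p (Smin ∪ Finset.univ.image qv) ρ ∧
            ∀ q ∈ Smin, q.Prime → q ≠ p → ρ.IsUnipotentOnInertiaAt q),
        ∃ γ : MvPowerSeries (Fin r) 𝒪 →ₐ[𝒪] DQ.R, Function.Surjective γ) := by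
  haveI := hCharP
  constructor
  · exact half_of p hp2 ρbar bbar hsplit S Smin hpSmin hSmin hmin (𝒟so 𝒪 p Smin)
      (fun S' SP hSP c hc => isUnrCocycle_of_isSelmerCocycle_strictOrdinary p Smin S' SP hSP hc)
      (fun S' SP hSP DQ r W hfin hmem hcard =>
        haveI := hfin
        exists_surjective_of_card_le_strictOrdinary p Smin S' SP DQ bbar hSP r W hmem hcard)
      hso_p hso_q hgood c₀ hN3 hN8 hN9 hN4 hN5
  · exact half_of p hp2 ρbar bbar hsplit S Smin hpSmin hSmin hmin (𝒟fl 𝒪 p Smin)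
      (fun S' SP hSP c hc => isUnrCocycle_of_isSelmerCocycle_flat p Smin S' SP hSP hc)
      (fun S' SP hSP DQ r W hfin hmem hcard =>
        haveI := hfin
        exists_surjective_of_card_le_flat p Smin S' SP DQ bbar hSP r W hmem hcard)
      hfl_p hfl_q hgood c₀ hN3 hN8 hN9 hN4 hN5

end

end Fermat.Agent.S56lib.Main
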