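/-
S56lib / Main / Glue (lead).  Small glue lemmas turning the literal hypotheses of S56 into the inputs
of `Main.s56_of_inputs`: `det ρ̄ = χ̄_p` in matrix form, (N8) for `complexConjugation`, the
ramification / finiteness side conditions of the local packages at `q ∈ Smin ∖ {p}`, and the two
packages `hso_q`, `hfl_q` themselves.
-/
import Mathlib
import Fermat.Agent.S56lib.Main.Final
import Fermat.Agent.S56lib.Dict.LocalPkg
import Fermat.Agent.S56lib.Dict.ComplexConj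
import Fermat.Agent.S56lib.Dict.CondCocycle
import Fermat.Agent.S56lib.Fin.Main

set_option autoImplicit false
set_option linter.unusedSectionVars false
set_option linter.style.haveILetI false

noncomputable section

namespace Fermat.Agent.S56lib.Main

open IsLocalRing Polynomial Fermat.Agent.TeamA Fermat.Agent.TeamA.Rep Fermat.Agent.S55lib
  Fermat.Agent.S56lib.Dict Fermat.Agent.S56lib.PT9a Fermat.Agent.S56lib.TWSel ExtCitation

section

variable {𝒪 : Type} [CommRing 𝒪] [IsDomain 𝒪] [IsDiscreteValuationRing 𝒪]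
  [IsAdicComplete (maximalIdeal 𝒪) 𝒪] [Finite (ResidueField 𝒪)]
  (p : ℕ) [hp : Fact p.Prime] [CharP (ResidueField 𝒪) p]
  (ρbar : ResidualGaloisRep (ResidueField 𝒪))
  (bbar : Module.Basis (Fin 2) (ResidueField 𝒪) ρbar.V)

/-- `det ρ̄ = χ̄_p`, matrix form -/
theorem det_resHom_eq_cycloExp
    (hdet : (GaloisRepAdic.ofResidualGaloisRep ρbar).DetIsCyclotomic p) (σ : GQ) :
    (resHom ρbar bbar σ).det = ((cycloExp p σ : ℕ) : ResidueField 𝒪) := by
  have h := hdet.2 1 σ (cycloExp p σ) (apply_root_eq_pow_cycloExp p σ)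
  have h0 : (((p ^ 1 : ℕ) : ℕ) : ResidueField 𝒪) = 0 := by
    rw [pow_one]
    exact CharP.cast_eq_zero _ p
  rw [h0, Ideal.span_singleton_eq_bot.mpr rfl, Ideal.mem_bot, sub_eq_zero] at h
  rw [det_resHom]
  exact h

/-- **(N8)** for `complexConjugation`, from the determinant hypothesis of S56 -/
theorem card_le_card_fixed_complexConjugation
    (hdet : (GaloisRepAdic.ofResidualGaloisRep ρbar).DetIsCyclotomic p) :
    Nat.card (ResidueField 𝒪) ≤
      Nat.card {m : adRep p (resHom ρbar bbar) //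
        (adRep p (resHom ρbar bbar)).ρ complexConjugation m = m} :=
  card_le_card_complexConj_invariants p (resHom ρbar bbar)
    (det_resHom_eq_cycloExp p ρbar bbar hdet complexConjugation)

variable {ρbar}

/-- `ρ̄` is unramified outside `primesIn Smin` -/
theorem unramified_of_not_mem_primesIn (Smin : Finset ℕ) (hpSmin : p ∈ Smin)
    (hmin : ∀ q : ℕ, q.Prime → q ≠ p → (q ∈ Smin ↔ ¬ ρbar.IsUnramifiedAt q))
    (q : Nat.Primes) (hq : q ∉ primesIn Smin) : ρbar.IsUnramifiedAt (q : ℕ) := by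
  have hqS : (q : ℕ) ∉ Smin := fun h => hq (mem_primesIn.2 h)
  have hqp : (q : ℕ) ≠ p := fun h => hqS (h ▸ hpSmin)
  by_contra hr
  exact hqS ((hmin q q.2 hqp).2 hr)

/-- `ρ̄` is ramified at `q ∈ Smin ∖ {p}` -/
theorem ramified_of_mem (Smin : Finset ℕ)
    (hmin : ∀ q : ℕ, q.Prime → q ≠ p → (q ∈ Smin ↔ ¬ ρbar.IsUnramifiedAt q))
    (q : Nat.Primes) (hqS : (q : ℕ) ∈ Smin) (hqp : (q : ℕ) ≠ p) : ¬ ρbar.IsUnramifiedAt (q : ℕ) :=
  (hmin q q.2 hqp).1 hqS

/-- `H¹(G_q, ad⁰ρ̄)` is finite for `q ∈ Smin` -/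
theorem finite_H1loc_of_mem (Smin : Finset ℕ) (hpSmin : p ∈ Smin)
    (hmin : ∀ q : ℕ, q.Prime → q ≠ p → (q ∈ Smin ↔ ¬ ρbar.IsUnramifiedAt q))
    (q : Nat.Primes) (hqS : (q : ℕ) ∈ Smin) :
    Finite (H1loc (adRep p (resHom ρbar bbar)) q) :=
  Fin.finite_H1loc (primesIn Smin) (adRep p (resHom ρbar bbar))
    (adRep_isSmooth_of_unramified bbar p (primesIn Smin)
      (unramified_of_not_mem_primesIn p Smin hpSmin hmin))
    ⟨q, mem_primesIn.2 hqS⟩

/-- the local package at `q ∈ Smin ∖ {p}`, strict-ordinary family (input `hso_q` of `s56_of_inputs`) -/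
theorem hasLocalCond_so_q (hp2 : p ≠ 2) (Smin : Finset ℕ) (hpSmin : p ∈ Smin)
    (hmin : ∀ q : ℕ, q.Prime → q ≠ p → (q ∈ Smin ↔ ¬ ρbar.IsUnramifiedAt q))
    (S' : Finset ℕ) (q : Nat.Primes) (hqS : (q : ℕ) ∈ Smin)
    (hqp : q ≠ (⟨p, hp.out⟩ : Nat.Primes)) :
    HasLocalCond p (resHom ρbar bbar) (𝒟so 𝒪 p Smin S') q
      (Nat.card (H0loc (adRep p (resHom ρbar bbar)) q)) := by
  have hqp' : (q : ℕ) ≠ p := fun h => hqp (Subtype.ext h)
  exact hasLocalCond_unr_strictOrdinary p hp2 ρbar bbar Smin S' q hqS hqp'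
    (ramified_of_mem p Smin hmin q hqS hqp') (finite_H1loc_of_mem p bbar Smin hpSmin hmin q hqS)

/-- the local package at `q ∈ Smin ∖ {p}`, flat family (input `hfl_q` of `s56_of_inputs`) -/
theorem hasLocalCond_fl_q (hp2 : p ≠ 2) (Smin : Finset ℕ) (hpSmin : p ∈ Smin)
    (hmin : ∀ q : ℕ, q.Prime → q ≠ p → (q ∈ Smin ↔ ¬ ρbar.IsUnramifiedAt q))
    (S' : Finset ℕ) (q : Nat.Primes) (hqS : (q : ℕ) ∈ Smin)
    (hqp : q ≠ (⟨p, hp.out⟩ : Nat.Primes)) :
    HasLocalCond p (resHom ρbar bbar) (𝒟fl 𝒪 p Smin S') q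
      (Nat.card (H0loc (adRep p (resHom ρbar bbar)) q)) := by
  have hqp' : (q : ℕ) ≠ p := fun h => hqp (Subtype.ext h)
  exact hasLocalCond_unr_flat p hp2 ρbar bbar Smin S' q hqS hqp'
    (ramified_of_mem p Smin hmin q hqS hqp') (finite_H1loc_of_mem p bbar Smin hpSmin hmin q hqS)

end

end Fermat.Agent.S56lib.Main
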