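/-
S56lib / Main / GlueEuler (lead).  The Euler characteristic inputs `hN3`, `hN4`, `hN5` of
`Main.s56_of_inputs` for `M = ad⁰ρ̄`, from helper1's `Euler.n3`, `Euler.n4`, `Euler.n5` and helper8's / helper7's
local units theorem `PT9.LocU.localUnits`.
-/
import Mathlib
import Fermat.Agent.S56lib.Main.Glue
import Fermat.Agent.S56lib.Euler.LocalN45
import Fermat.Agent.S56lib.PT9.LocU.All
import Fermat.Agent.S56lib.Euler.N3

set_option autoImplicit false
set_option linter.unusedSectionVars false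
set_option linter.style.haveILetI false

noncomputable section

namespace Fermat.Agent.S56lib.Main

open IsLocalRing Polynomial Fermat.Agent.TeamA Fermat.Agent.TeamA.Rep Fermat.Agent.S55lib
  Fermat.Agent.S56lib.Dict Fermat.Agent.S56lib.PT9a Fermat.Agent.S56lib.TWSel ExtCitation

section

variable {𝒪 : Type} [CommRing 𝒪] [IsDomain 𝒪] [IsDiscreteValuationRing 𝒪]
  [IsAdicComplete (maximalIdeal 𝒪) 𝒪] [Finite (ResidueField 𝒪)]
  (p : ℕ) [hp : Fact p.Prime] [CharP (ResidueField 𝒪) p]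
  {ρbar : ResidualGaloisRep (ResidueField 𝒪)}
  (bbar : Module.Basis (Fin 2) (ResidueField 𝒪) ρbar.V)

/-- `ad⁰ρ̄` is smooth for `unr (primesIn Smin)` -/
theorem adRep_isSmooth_primesIn (Smin : Finset ℕ) (hpSmin : p ∈ Smin)
    (hmin : ∀ q : ℕ, q.Prime → q ≠ p → (q ∈ Smin ↔ ¬ ρbar.IsUnramifiedAt q)) :
    Sm.IsSmooth (MonoidHom.id GQ) (LevelClass.unr (primesIn Smin)) (adRep p (resHom ρbar bbar)) :=
  adRep_isSmooth_of_unramified bbar p (primesIn Smin)
    (unramified_of_not_mem_primesIn p Smin hpSmin hmin)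

/-- input `hN4` of `s56_of_inputs` -/
theorem hN4_adRep (hp2 : p ≠ 2) (Smin : Finset ℕ) (hpSmin : p ∈ Smin)
    (hmin : ∀ q : ℕ, q.Prime → q ≠ p → (q ∈ Smin ↔ ¬ ρbar.IsUnramifiedAt q)) :
    Nat.card (H0loc (adRep p (resHom ρbar bbar)) ⟨p, hp.out⟩) *
        Nat.card (H2loc (adRep p (resHom ρbar bbar)) ⟨p, hp.out⟩) *
        Nat.card (adRep p (resHom ρbar bbar)) ≤
      Nat.card (H1loc (adRep p (resHom ρbar bbar)) ⟨p, hp.out⟩) := by
  haveI : Finite (adRep p (resHom ρbar bbar)) := adRep_finite p (resHom ρbar bbar)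
  haveI : FiniteDimensional (ZMod p) (adRep p (resHom ρbar bbar)) := Module.Finite.of_finite
  exact Euler.n4 hp2 ⟨p, hp.out⟩ rfl (PT9.LocU.localUnits p hp2 ⟨p, hp.out⟩) (primesIn Smin)
    (mem_primesIn.2 hpSmin) (adRep p (resHom ρbar bbar))
    (adRep_isSmooth_primesIn p bbar Smin hpSmin hmin)

/-- input `hN5` of `s56_of_inputs` -/
theorem hN5_adRep (hp2 : p ≠ 2) (Smin : Finset ℕ) (hpSmin : p ∈ Smin)
    (hmin : ∀ q : ℕ, q.Prime → q ≠ p → (q ∈ Smin ↔ ¬ ρbar.IsUnramifiedAt q))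
    (q : Nat.Primes) (hq : q ≠ (⟨p, hp.out⟩ : Nat.Primes)) :
    Nat.card (H0loc (adRep p (resHom ρbar bbar)) q) *
        Nat.card (H2loc (adRep p (resHom ρbar bbar)) q) ≤
      Nat.card (H1loc (adRep p (resHom ρbar bbar)) q) := by
  haveI : Finite (adRep p (resHom ρbar bbar)) := adRep_finite p (resHom ρbar bbar)
  haveI : FiniteDimensional (ZMod p) (adRep p (resHom ρbar bbar)) := Module.Finite.of_finite
  exact Euler.n5 hp2 q hq (primesIn Smin) (mem_primesIn.2 hpSmin) (adRep p (resHom ρbar bbar))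
    (adRep_isSmooth_primesIn p bbar Smin hpSmin hmin)

/-- input `hN3` of `s56_of_inputs` (with `c₀ := complexConjugation`) -/
theorem hN3_adRep (hp2 : p ≠ 2) (SP : Finset Nat.Primes) (hpSP : (⟨p, hp.out⟩ : Nat.Primes) ∈ SP)
    (hM : Sm.IsSmooth (MonoidHom.id GQ) (LevelClass.unr SP) (adRep p (resHom ρbar bbar))) :
    Nat.card (H1S SP (adRep p (resHom ρbar bbar))) *
        Nat.card {m : adRep p (resHom ρbar bbar) //
          (adRep p (resHom ρbar bbar)).ρ complexConjugation m = m} ≤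
      Nat.card (H2S SP (adRep p (resHom ρbar bbar))) * Nat.card (adRep p (resHom ρbar bbar)) *
        Nat.card (adRep p (resHom ρbar bbar)).ρ.invariants := by
  haveI : Finite (adRep p (resHom ρbar bbar)) := adRep_finite p (resHom ρbar bbar)
  haveI : FiniteDimensional (ZMod p) (adRep p (resHom ρbar bbar)) := Module.Finite.of_finite
  exact Euler.n3 hp2 SP hpSP (adRep p (resHom ρbar bbar)) hM

end

end Fermat.Agent.S56lib.Main
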