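/-
S56lib / Main / N9 (lead).  **(N9)  `H⁰(G_ℚ, ad⁰ρ̄) = 0`** for an absolutely irreducible `ρ̄` in
odd residue characteristic (Schur): a trace-zero matrix commuting with `ρ̄` has, over the algebraic
closure, an eigenspace which is a non-zero stable subspace, hence everything; so the matrix is a
scalar of trace zero, i.e. zero.
-/
import Mathlib
import Fermat.Agent.S56lib.Main.Setup

set_option autoImplicit false
set_option linter.unusedSectionVars false
set_option linter.style.haveILetI false

noncomputable section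

namespace Fermat.Agent.S56lib.Main

open IsLocalRing Fermat.Agent.TeamA Fermat.Agent.TeamA.Rep Fermat.Agent.S55lib
  Fermat.Agent.S56lib.Dict TensorProduct

section Schur

variable {k : Type} [Field k] {V : Type} [AddCommGroup V] [Module k V]
  (K : Type) [Field K] [Algebra k K] [IsAlgClosed K]

/-- Schur's lemma for a trace-zero endomorphism of a plane. -/
theorem eq_zero_of_commute_of_trace_eq_zero (h2 : (2 : k) ≠ 0) (hV : Module.finrank k V = 2)
    {G : Type*} [Monoid G] (ρ : G →* Module.End k V)
    (hirr : ∀ W : Submodule K (K ⊗[k] V),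
      (∀ σ : G, ∀ x ∈ W, (ρ σ).baseChange K x ∈ W) → W = ⊥ ∨ W = ⊤)
    (T : Module.End k V) (hT : ∀ σ, T * ρ σ = ρ σ * T) (htr : LinearMap.trace k V T = 0) :
    T = 0 := by
  haveI : Module.Finite k V := Module.finite_of_finrank_eq_succ hV
  haveI : Module.Free k V := Module.Free.of_divisionRing k V
  have hfr : Module.finrank K (K ⊗[k] V) = 2 := by rw [Module.finrank_baseChange, hV]
  haveI : Module.Finite K (K ⊗[k] V) := Module.finite_of_finrank_eq_succ hfr
  haveI : Nontrivial (K ⊗[k] V) := Module.nontrivial_of_finrank_pos (R := K) (by omega)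
  obtain ⟨μ, hμ⟩ := Module.End.exists_eigenvalue (T.baseChange K)
  have hstab : ∀ σ : G, ∀ x ∈ Module.End.eigenspace (T.baseChange K) μ,
      (ρ σ).baseChange K x ∈ Module.End.eigenspace (T.baseChange K) μ := by
    intro σ x hx
    rw [Module.End.mem_eigenspace_iff] at hx ⊢
    have h1 : T.baseChange K ((ρ σ).baseChange K x) = (ρ σ).baseChange K (T.baseChange K x) := by
      have e1 : T.baseChange K ((ρ σ).baseChange K x) = ((T * ρ σ).baseChange K) x := by
        rw [LinearMap.baseChange_mul]; rfl
      have e2 : (ρ σ).baseChange K (T.baseChange K x) = ((ρ σ * T).baseChange K) x := by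
        rw [LinearMap.baseChange_mul]; rfl
      rw [e1, e2, hT σ]
    rw [h1, hx, map_smul]
  have htop : Module.End.eigenspace (T.baseChange K) μ = ⊤ :=
    (hirr _ hstab).resolve_left hμ
  have hTK : T.baseChange K = μ • (1 : Module.End K (K ⊗[k] V)) := by
    apply LinearMap.ext
    intro x
    have hx : x ∈ Module.End.eigenspace (T.baseChange K) μ := htop ▸ Submodule.mem_top
    rw [Module.End.mem_eigenspace_iff] at hx
    rw [hx]
    rfl
  have htrK : LinearMap.trace K (K ⊗[k] V) (T.baseChange K) = 0 := by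
    rw [LinearMap.trace_baseChange, htr, map_zero]
  rw [hTK, map_smul, LinearMap.trace_one, hfr, smul_eq_mul] at htrK
  have h2K : ((2 : ℕ) : K) ≠ 0 := by
    have : ((2 : ℕ) : K) = algebraMap k K 2 := by rw [map_ofNat]; norm_num
    rw [this]
    exact (map_ne_zero _).2 h2
  have hμ0 : μ = 0 := (mul_eq_zero.1 htrK).resolve_right h2K
  rw [hμ0, zero_smul] at hTK
  apply LinearMap.ext
  intro v
  have h3 : (1 : K) ⊗ₜ[k] T v = 0 := by
    have := congrArg (fun f : Module.End K (K ⊗[k] V) => f ((1 : K) ⊗ₜ[k] v)) hTK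
    simpa using this
  have hinj : Function.Injective (TensorProduct.mk k K V 1) :=
    Module.Flat.tensorProduct_mk_injective (R := k) (S := K) (M := V)
  apply hinj
  rw [TensorProduct.mk_apply, h3, LinearMap.zero_apply, map_zero]

end Schur

section

variable {𝒪 : Type} [CommRing 𝒪] [IsDomain 𝒪] [IsDiscreteValuationRing 𝒪]
  [IsAdicComplete (maximalIdeal 𝒪) 𝒪] [Finite (ResidueField 𝒪)]
  (p : ℕ) [hp : Fact p.Prime] [CharP (ResidueField 𝒪) p]
  {ρbar : ResidualGaloisRep (ResidueField 𝒪)}
  (bbar : Module.Basis (Fin 2) (ResidueField 𝒪) ρbar.V)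

/-- **(N9)**: `ad⁰ρ̄` has no non-zero invariants. -/
theorem adRep_invariants_eq_zero (hp2 : p ≠ 2) (habs : ρbar.IsAbsolutelyIrreducible)
    (m : adRep p (resHom ρbar bbar))
    (hm : ∀ g : GQ, (adRep p (resHom ρbar bbar)).ρ g m = m) : m = 0 := by
  have h2 : (2 : ResidueField 𝒪) ≠ 0 := by
    intro h
    have h' : ((2 : ℕ) : ResidueField 𝒪) = 0 := by exact_mod_cast h
    have hdvd := (CharP.cast_eq_zero_iff (ResidueField 𝒪) p 2).1 h'
    exact hp2 ((Nat.prime_dvd_prime_iff_eq hp.out Nat.prime_two).1 hdvd)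
  set X := adVal p m with hX
  have hcomm : ∀ g : GQ, X * resHom ρbar bbar g = resHom ρbar bbar g * X := by
    intro g
    have h1 := congrArg (adVal p (rb := resHom ρbar bbar)) (hm g)
    rw [adVal_ρ] at h1
    calc X * resHom ρbar bbar g
        = (resHom ρbar bbar g * X * resHom ρbar bbar g⁻¹) * resHom ρbar bbar g := by rw [h1]
      _ = resHom ρbar bbar g * X * (resHom ρbar bbar g⁻¹ * resHom ρbar bbar g) := by
          simp only [Matrix.mul_assoc]
      _ = resHom ρbar bbar g * X := by
          rw [← map_mul, inv_mul_cancel, map_one, Matrix.mul_one]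
  have hρ : ∀ g : GQ, ρbar.ρ g = Matrix.toLin bbar bbar (resHom ρbar bbar g) := by
    intro g
    rw [Dict.resHom_apply, matOfRes, Matrix.toLin_toMatrix]
  have hT := eq_zero_of_commute_of_trace_eq_zero (AlgebraicClosure (ResidueField 𝒪)) h2
    ρbar.finrank_eq ρbar.ρ (fun W hW => habs W hW) (Matrix.toLin bbar bbar X)
    (fun g => by
      rw [hρ g, Module.End.mul_eq_comp, Module.End.mul_eq_comp, ← Matrix.toLin_mul,
        ← Matrix.toLin_mul, hcomm g])
    (by
      rw [LinearMap.trace_eq_matrix_trace _ bbar, LinearMap.toMatrix_toLin]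
      exact trace_adVal p m)
  have hX0 : X = 0 := by
    have := congrArg (LinearMap.toMatrix bbar bbar) hT
    rwa [LinearMap.toMatrix_toLin, map_zero] at this
  exact adVal_injective p (by rw [← hX, hX0]; rfl)

/-- **(N9)**, cardinality form (input `hN9` of `s56_of_inputs`). -/
theorem card_invariants_adRep (hp2 : p ≠ 2) (habs : ρbar.IsAbsolutelyIrreducible) :
    Nat.card (adRep p (resHom ρbar bbar)).ρ.invariants = 1 := by
  rw [Nat.card_eq_one_iff_unique]
  refine ⟨⟨fun a b => ?_⟩, ⟨0⟩⟩
  have ha : a.1 = 0 := adRep_invariants_eq_zero p bbar hp2 habs a.1 a.2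
  have hb : b.1 = 0 := adRep_invariants_eq_zero p bbar hp2 habs b.1 b.2
  exact Subtype.ext (ha.trans hb.symm)

end

end Fermat.Agent.S56lib.Main
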